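import Fermat.Agent.S19.Defs
import Fermat.Agent.GAL.ALG.Defs

/-!
# Project S32 (flatness at `p` of the Hecke-valued representation): basic definitions

* `combAct a x` : the action of `a = ∑ n_g g ∈ ℤ[G_ℚ]` on an element of a `G_ℚ`-module.
* `ModRep ρ K`  : `(ℤ/p^K)^r` with the action of `G_ℚ` through `ρ mod p^K`, `ρ : G_ℚ → M_r(ℤ_p)`.
* `LevelMod ρ I` : `V / I V` with the action `GaloisRepAdic.levelAction`.
-/

set_option autoImplicit false

namespace Fermat.Agent.S32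

open Fermat.Agent.S19

/-- The action of `a = ∑ n_g g ∈ ℤ[G_ℚ]`. -/
noncomputable def combAct {X : Type} [AddCommGroup X] [DistribMulAction GQ X] (a : GQ →₀ ℤ) (x : X) : X :=
  a.sum fun g n => n • (g • x)

/-- `(ℤ/p^K)^r` with the action of `G_ℚ` through `ρ mod p^K`. -/
def ModRep {p r : ℕ} [Fact p.Prime] (_ρ : GQ →* Matrix (Fin r) (Fin r) ℤ_[p]) (K : ℕ) : Type :=
  Fin r → ZMod (p ^ K)

section ModRep

variable {p r : ℕ} [Fact p.Prime] (ρ : GQ →* Matrix (Fin r) (Fin r) ℤ_[p]) (K : ℕ)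

instance : AddCommGroup (ModRep ρ K) := inferInstanceAs (AddCommGroup (Fin r → ZMod (p ^ K)))

instance : Finite (ModRep ρ K) :=
  haveI : NeZero (p ^ K) := ⟨pow_ne_zero K (Fact.out : p.Prime).ne_zero⟩
  inferInstanceAs (Finite (Fin r → ZMod (p ^ K)))

/-- The identity `(ℤ/p^K)^r ≃ ModRep ρ K`. -/
def ModRep.of : (Fin r → ZMod (p ^ K)) ≃+ ModRep ρ K := AddEquiv.refl _

noncomputable instance : DistribMulAction GQ (ModRep ρ K) where
  smul σ x := ModRep.of ρ K
    (((PadicInt.toZModPow K).mapMatrix (ρ σ)).mulVec ((ModRep.of ρ K).symm x))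
  one_smul x := by
    show ((PadicInt.toZModPow K).mapMatrix (ρ 1)).mulVec x = x
    rw [map_one, map_one, Matrix.one_mulVec]
  mul_smul σ τ x := by
    show ((PadicInt.toZModPow K).mapMatrix (ρ (σ * τ))).mulVec x =
      ((PadicInt.toZModPow K).mapMatrix (ρ σ)).mulVec
        (((PadicInt.toZModPow K).mapMatrix (ρ τ)).mulVec x)
    rw [map_mul, map_mul, Matrix.mulVec_mulVec]
  smul_zero σ := by
    show ((PadicInt.toZModPow K).mapMatrix (ρ σ)).mulVec (0 : Fin r → ZMod (p ^ K)) = 0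
    exact Matrix.mulVec_zero _
  smul_add σ x y := by
    show ((PadicInt.toZModPow K).mapMatrix (ρ σ)).mulVec ((x : Fin r → ZMod (p ^ K)) + y) = _
    exact Matrix.mulVec_add _ x y

theorem ModRep.smul_of (σ : GQ) (x : Fin r → ZMod (p ^ K)) :
    σ • ModRep.of ρ K x = ModRep.of ρ K (((PadicInt.toZModPow K).mapMatrix (ρ σ)).mulVec x) := rfl

end ModRep

/-- `V / I V` with the action `levelAction`. -/
def LevelMod {A : Type} [CommRing A] [IsLocalRing A] (ρ : GaloisRepAdic A) (I : Ideal A) : Type :=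
  ρ.V ⧸ (I • (⊤ : Submodule A ρ.V))

section LevelMod

variable {A : Type} [CommRing A] [IsLocalRing A] (ρ : GaloisRepAdic A) (I : Ideal A)

instance : AddCommGroup (LevelMod ρ I) :=
  inferInstanceAs (AddCommGroup (ρ.V ⧸ (I • (⊤ : Submodule A ρ.V))))

/-- The class of a vector. -/
def LevelMod.mk : ρ.V →+ LevelMod ρ I := (Submodule.mkQ (I • (⊤ : Submodule A ρ.V))).toAddMonoidHom

theorem LevelMod.mk_surjective : Function.Surjective (LevelMod.mk ρ I) :=
  Submodule.mkQ_surjective _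

theorem LevelMod.mk_eq_zero_iff (v : ρ.V) :
    LevelMod.mk ρ I v = 0 ↔ v ∈ I • (⊤ : Submodule A ρ.V) :=
  Submodule.Quotient.mk_eq_zero _

noncomputable instance : DistribMulAction GQ (LevelMod ρ I) where
  smul σ x := ρ.levelAction I σ x
  one_smul x := by
    obtain ⟨v, rfl⟩ := LevelMod.mk_surjective ρ I x
    show Submodule.mapQ _ _ (ρ.ρ 1) _ (Submodule.Quotient.mk v) = Submodule.Quotient.mk v
    rw [Submodule.mapQ_apply, map_one, Module.End.one_apply]
  mul_smul σ τ x := by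
    obtain ⟨v, rfl⟩ := LevelMod.mk_surjective ρ I x
    show Submodule.mapQ _ _ (ρ.ρ (σ * τ)) _ (Submodule.Quotient.mk v) =
      Submodule.mapQ _ _ (ρ.ρ σ) _ (Submodule.mapQ _ _ (ρ.ρ τ) _ (Submodule.Quotient.mk v))
    rw [Submodule.mapQ_apply, Submodule.mapQ_apply, Submodule.mapQ_apply, map_mul,
      Module.End.mul_apply]
  smul_zero σ := map_zero (ρ.levelAction I σ)
  smul_add σ x y := map_add (ρ.levelAction I σ) x y

theorem LevelMod.smul_def (σ : GQ) (x : LevelMod ρ I) : σ • x = ρ.levelAction I σ x := rfl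

theorem LevelMod.smul_mk (σ : GQ) (v : ρ.V) :
    σ • LevelMod.mk ρ I v = LevelMod.mk ρ I (ρ.ρ σ v) := rfl

end LevelMod

/-- `IsFlatAt` in terms of `IsFlatMod`. -/
theorem isFlatAt_iff {A : Type} [CommRing A] [IsLocalRing A] (ρ : GaloisRepAdic A) (p : ℕ) :
    ρ.IsFlatAt p ↔ Finite (IsLocalRing.ResidueField A) ∧
      ∀ I : Ideal A, Finite (A ⧸ I) → IsFlatMod p (LevelMod ρ I) := Iff.rfl

end Fermat.Agent.S32
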