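import Fermat.Agent.GAL.Model
import Fermat.Agent.Lib.RR.Basic
import Fermat.Agent.GAL.RED.CurveBasic

/-!
# S32 / KVPic: the Kummer model `KV K F m` embeds into `Pic⁰(F)[m]`

`u ↦ [div(u) / m]`.
-/

set_option autoImplicit false

namespace Fermat.Agent.S32

open AlgebraicCurve Fermat.Agent.GAL Fermat.Agent.Lib.RR

section KVPicAux

variable {K F : Type*} [Field K] [Field F] [Algebra K F]

/-- `div(u) / m`. -/
private noncomputable def KVPic_divM [HasPrincipalDivisors K F] (m : ℕ) (u : F) : Divisor K F :=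
  (divOf (K := K) u).mapRange (· / (m : ℤ)) (by simp)

private theorem KVPic_divM_apply [HasPrincipalDivisors K F] (m : ℕ) (u : F) (v : Place K F) :
    KVPic_divM (K := K) m u v = v.ord u / (m : ℤ) := by
  simp [KVPic_divM]

private theorem KVPic_smul_divM [HasPrincipalDivisors K F] (m : ℕ) (u : F)
    (hu : ∀ P : Place K F, (m : ℤ) ∣ P.ord u) :
    (m : ℤ) • KVPic_divM (K := K) m u = divOf u := by
  ext v
  rw [Finsupp.smul_apply, KVPic_divM_apply, divOf_apply, smul_eq_mul]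
  exact Int.mul_ediv_cancel' (hu v)

private theorem KVPic_degree_divM [HasPrincipalDivisors K F] (m : ℕ) (hm : m ≠ 0) (u : F)
    (hu : ∀ P : Place K F, (m : ℤ) ∣ P.ord u) :
    Divisor.degree (KVPic_divM (K := K) m u) = 0 := by
  have h := congrArg Divisor.degree (KVPic_smul_divM (K := K) m u hu)
  rw [map_zsmul, degree_divOf, smul_eq_mul] at h
  rcases mul_eq_zero.mp h with h | h
  · exact absurd (by exact_mod_cast h) hm
  · exact h

private theorem KVPic_mk_eq_zero_iff (D : Divisor.degZero (K := K) (F := F)) :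
    Pic0.mk D = 0 ↔ Divisor.IsPrincipal (D : Divisor K F) := by
  unfold Pic0.mk
  rw [QuotientAddGroup.eq_zero_iff, AddSubgroup.mem_addSubgroupOf]
  rfl

/-- the map on Kummer units. -/
private noncomputable def KVPic_unitHom [HasPrincipalDivisors K F] (m : ℕ) (hm : m ≠ 0) :
    kummerUnits K F m →* Multiplicative (Pic0 K F) where
  toFun u := Multiplicative.ofAdd (Pic0.mk ⟨KVPic_divM (K := K) m ((u : Fˣ) : F),
    KVPic_degree_divM m hm _ u.2⟩)
  map_one' := by
    rw [← ofAdd_zero]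
    congr 1
    rw [KVPic_mk_eq_zero_iff]
    refine ⟨1, one_ne_zero, fun v => ?_⟩
    simp [KVPic_divM_apply]
  map_mul' u w := by
    rw [← ofAdd_add, ← Pic0.mk_add]
    congr 2
    ext v
    simp only [AddSubgroup.coe_add, Finsupp.add_apply, KVPic_divM_apply, Subgroup.coe_mul,
      Units.val_mul]
    rw [v.ord_mul (Units.ne_zero _) (Units.ne_zero _)]
    exact Int.add_ediv_of_dvd_left (u.2 v)

private theorem KVPic_unitHom_apply [HasPrincipalDivisors K F] (m : ℕ) (hm : m ≠ 0)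
    (u : kummerUnits K F m) :
    KVPic_unitHom (K := K) (F := F) m hm u
      = Multiplicative.ofAdd (Pic0.mk ⟨KVPic_divM (K := K) m ((u : Fˣ) : F),
          KVPic_degree_divM m hm _ u.2⟩) := rfl

private theorem KVPic_unitHom_le [HasPrincipalDivisors K F] (m : ℕ) (hm : m ≠ 0) :
    kummerPowers K F m ≤ (KVPic_unitHom (K := K) (F := F) m hm).ker := by
  intro u hu
  rw [kummerPowers, Subgroup.mem_subgroupOf, MonoidHom.mem_range] at hu
  obtain ⟨y, hy⟩ := hu
  rw [MonoidHom.mem_ker, KVPic_unitHom_apply, ← ofAdd_zero]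
  congr 1
  rw [KVPic_mk_eq_zero_iff]
  refine ⟨(y : F), Units.ne_zero _, fun v => ?_⟩
  have hy' : ((u : Fˣ) : F) = (y : F) ^ m := by
    rw [← hy]; simp
  show KVPic_divM (K := K) m ((u : Fˣ) : F) v = _
  rw [KVPic_divM_apply, hy', RED.ord_pow]
  exact Int.mul_ediv_cancel_left _ (by exact_mod_cast hm)

/-- the map on `KV`. -/
private noncomputable def KVPic_hom [HasPrincipalDivisors K F] (m : ℕ) (hm : m ≠ 0) :
    KV K F m →+ Pic0 K F :=
  MonoidHom.toAdditiveLeft (QuotientGroup.lift (kummerPowers K F m)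
    (KVPic_unitHom (K := K) (F := F) m hm) (KVPic_unitHom_le m hm))

private theorem KVPic_hom_mk [HasPrincipalDivisors K F] (m : ℕ) (hm : m ≠ 0)
    (u : kummerUnits K F m) :
    KVPic_hom (K := K) (F := F) m hm (KV.mk u)
      = Pic0.mk ⟨KVPic_divM (K := K) m ((u : Fˣ) : F), KVPic_degree_divM m hm _ u.2⟩ := rfl

end KVPicAux

theorem exists_kvToPic {K F : Type*} [Field K] [Field F] [Algebra K F] [IsFF K F] [IsAlgClosed K]
    (m : ℕ) (hm : m ≠ 0) :
    ∃ φ : KV K F m →+ Pic0 K F, Function.Injective φ ∧ (∀ x, (m : ℤ) • φ x = 0) ∧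
      ∀ (g : SemilinearAut K F) (x : KV K F m), φ (g • x) = g • φ x := by
  refine ⟨KVPic_hom m hm, ?_, ?_, ?_⟩
  · rw [injective_iff_map_eq_zero]
    intro x hx
    obtain ⟨u, rfl⟩ := KV.mk_surjective x
    rw [KVPic_hom_mk, KVPic_mk_eq_zero_iff] at hx
    obtain ⟨g, hg, hD⟩ := hx
    rw [KV.mk_eq_zero_iff]
    have hu0 : ((u : Fˣ) : F) ≠ 0 := Units.ne_zero _
    have hord : ∀ P : Place K F, P.ord (((u : Fˣ) : F) / g ^ m) = 0 := by
      intro P
      have h1 : KVPic_divM (K := K) m ((u : Fˣ) : F) P = P.ord g := hD P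
      rw [KVPic_divM_apply] at h1
      rw [RED.ord_div P hu0 (pow_ne_zero _ hg), RED.ord_pow, ← h1,
        Int.mul_ediv_cancel' (u.2 P), sub_self]
    obtain ⟨c, hc⟩ := RED.mem_range_of_ord_nonneg (f := ((u : Fˣ) : F) / g ^ m)
      (fun P => (hord P).ge)
    obtain ⟨d, hd⟩ := IsAlgClosed.exists_pow_nat_eq c (Nat.pos_of_ne_zero hm)
    have hfin : (algebraMap K F d * g) ^ m = ((u : Fˣ) : F) := by
      rw [mul_pow, ← map_pow, hd, hc, div_mul_cancel₀ _ (pow_ne_zero _ hg)]
    have hne : algebraMap K F d * g ≠ 0 := by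
      intro h0
      rw [h0, zero_pow hm] at hfin
      exact hu0 hfin.symm
    refine ⟨Units.mk0 _ hne, ?_⟩
    ext
    simpa using hfin
  · intro x
    obtain ⟨u, rfl⟩ := KV.mk_surjective x
    rw [KVPic_hom_mk]
    have : (m : ℤ) • Pic0.mk (K := K) (F := F) ⟨KVPic_divM (K := K) m ((u : Fˣ) : F),
        KVPic_degree_divM m hm _ u.2⟩
        = Pic0.mk ((m : ℤ) • ⟨KVPic_divM (K := K) m ((u : Fˣ) : F),
        KVPic_degree_divM m hm _ u.2⟩) := rfl
    rw [this, KVPic_mk_eq_zero_iff]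
    refine ⟨((u : Fˣ) : F), Units.ne_zero _, fun v => ?_⟩
    show ((m : ℤ) • KVPic_divM (K := K) m ((u : Fˣ) : F)) v = _
    rw [KVPic_smul_divM m _ u.2, divOf_apply]
  · intro g x
    obtain ⟨u, rfl⟩ := KV.mk_surjective x
    rw [KV.semilinear_smul_mk, KVPic_hom_mk, KVPic_hom_mk, SemilinearAut.pic0_smul_mk]
    congr 1
    ext v
    show KVPic_divM (K := K) m (g • ((u : Fˣ) : F)) v
      = (g • KVPic_divM (K := K) m ((u : Fˣ) : F)) v
    rw [SemilinearAut.divisor_smul_apply, KVPic_divM_apply, KVPic_divM_apply]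
    have h := SemilinearAut.ord_smul g (g⁻¹ • v) ((u : Fˣ) : F)
    rw [smul_inv_smul] at h
    rw [h]

end Fermat.Agent.S32
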