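import Fermat.Agent.S32.Defs

/-!
# S32 / OfS19: from the conclusion of S19 (a Hopf algebra) back to a Hopf order of functions

`J` a `G_ℚ`-module, `m : ℤ`.  If `J[m]` is the group of `ℚ̄`-points of a finite flat Hopf algebra `H` (literally the
conclusion of the frozen statement S19), then every `G_ℚ`-module `Y` with an equivariant embedding into `J` with image
killed by `m` has a Hopf order of functions.

Proof.  For `y : Y` put `f_y := e.symm ⟨φ y, _⟩ : H →ₐ ℚ̄`.  `ev : H →ₐ[Rl ℓ] (Y → ℚ̄)`, `h ↦ (y ↦ f_y h)`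
(`Pi.algHom`), `H' := ev.range`.
* `equivariant`: `g := σ ∘ f_y` (as an `AlgHom`: `(σ.restrictScalars (Rl ℓ)).toAlgHom.comp f_y`, then `WithConv.toConv`)
  satisfies `e g = σ • φ y = φ (σ • y)`, so `g = f_{σ y}`.
* `fg`: image of a finite module (`Submodule.FG.map`, `Module.Finite.fg_top`).
* `separates`: `f_x = f_y ⟹ x = y` (`e.symm`, `φ` injective).
* `counit`: `f_0 = 1` in `WithConv` (`e 1 = 0` because `e (1 * 1) = e 1 + e 1`), and
  `(1 : WithConv _) h = algebraMap (counit h)` (`AlgHom.convOne`-lemmas in `Mathlib.RingTheory.Bialgebra.Convolution`).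
* `comul`: `f_{x+y} = f_x * f_y`, `(f * g) h = ∑ f(h₁) g(h₂)` with `Coalgebra.Repr`
  (`Coalgebra.Repr.arbitrary`, `AlgHom.convMul_apply`/`LinearMap.convMul_apply`, `Coalgebra.Repr.eq`).
-/

set_option autoImplicit false

namespace Fermat.Agent.S32

open Fermat.Agent.S19

theorem isFunFlat_of_hopf {J : Type} [AddCommGroup J] [DistribMulAction GQ J] (ℓ : ℕ) (m : ℤ)
    (hJ : ∃ (H : Type) (_ : CommRing H) (_ : HopfAlgebra (GaloisRep.ratLocalizedAt ℓ) H),
      Module.Finite (GaloisRep.ratLocalizedAt ℓ) H ∧ Module.Flat (GaloisRep.ratLocalizedAt ℓ) H ∧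
      Coalgebra.IsCocomm (GaloisRep.ratLocalizedAt ℓ) H ∧
      ∃ e : WithConv (H →ₐ[GaloisRep.ratLocalizedAt ℓ] AlgebraicClosure ℚ) ≃
          ↥(Submodule.torsionBy ℤ J m),
        (∀ f g, e (f * g) = e f + e g) ∧
        ∀ (σ : AlgebraicClosure ℚ ≃ₐ[ℚ] AlgebraicClosure ℚ)
          (f g : WithConv (H →ₐ[GaloisRep.ratLocalizedAt ℓ] AlgebraicClosure ℚ)),
          (∀ h : H, g h = σ (f h)) → ((e g : J)) = σ • (e f : J))
    {Y : Type} [AddCommGroup Y] [DistribMulAction GQ Y] (φ : Y →+ J) (hφ : Function.Injective φ)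
    (hequiv : ∀ (σ : GQ) (y : Y), φ (σ • y) = σ • φ y) (hm : ∀ y : Y, m • φ y = 0) :
    IsFunFlat ℓ Y := by
  classical
  obtain ⟨H, i1, i2, hfin, -, -, e, hmul, hgal⟩ := hJ
  let pt : Y → ↥(Submodule.torsionBy ℤ J m) := fun y =>
    ⟨φ y, by rw [Submodule.mem_torsionBy_iff]; exact hm y⟩
  let fy : Y → WithConv (H →ₐ[Rl ℓ] Qb) := fun y => e.symm (pt y)
  have hefy : ∀ y, e (fy y) = pt y := fun y => e.apply_symm_apply _
  let ev : H →ₐ[Rl ℓ] (Y → Qb) := AlgHom.pi (fun y => (fy y).ofConv)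
  have hev : ∀ h y, ev h y = fy y h := fun h y => rfl
  refine ⟨ev.range, ?_, ?_, ?_, ?_, ?_⟩
  · rintro _ ⟨h, rfl⟩ σ y
    let σ' : Qb →ₐ[Rl ℓ] Qb := (σ.toAlgHom).restrictScalars (Rl ℓ)
    let g : WithConv (H →ₐ[Rl ℓ] Qb) := WithConv.toConv (σ'.comp (fy y).ofConv)
    have hg : ∀ h, g h = σ (fy y h) := fun h => rfl
    have h1 := hgal σ (fy y) g hg
    have h2 : e g = pt (σ • y) := by
      apply Subtype.ext
      rw [h1, hefy]
      exact (hequiv σ y).symm
    have h3 : g = fy (σ • y) := by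
      rw [← e.symm_apply_apply g, h2]
    show ev h (σ • y) = σ (ev h y)
    rw [hev, ← h3, hg, hev]
  · have h1 : Subalgebra.toSubmodule ev.range = (⊤ : Submodule (Rl ℓ) H).map ev.toLinearMap := by
      ext z
      simp
    rw [h1]
    exact (Module.Finite.fg_top).map _
  · intro x y hxy
    apply hφ
    have h1 : fy x = fy y := WithConv.ext (AlgHom.ext fun h => hxy _ ⟨h, rfl⟩)
    have h2 := e.symm.injective h1
    exact congrArg Subtype.val h2
  · rintro _ ⟨h, rfl⟩
    have h1 : e 1 = 0 := by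
      have h2 := hmul 1 1
      rw [mul_one] at h2
      exact left_eq_add.1 h2
    have h0 : fy 0 = 1 := by
      show e.symm (pt 0) = 1
      rw [Equiv.symm_apply_eq, h1]
      apply Subtype.ext
      exact map_zero φ
    refine ⟨Coalgebra.counit h, ?_⟩
    show ev h 0 = _
    rw [hev, h0]
    rfl
  · rintro _ ⟨h, rfl⟩
    have hadd : ∀ x y, fy (x + y) = fy x * fy y := by
      intro x y
      show e.symm _ = _
      rw [Equiv.symm_apply_eq, hmul, hefy, hefy]
      apply Subtype.ext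
      exact map_add φ x y
    let 𝓡 := Coalgebra.Repr.arbitrary (Rl ℓ) h
    have hconv : ∀ x y, (fy x * fy y) h = ∑ i ∈ 𝓡.index, fy x (𝓡.left i) * fy y (𝓡.right i) :=
      fun x y => 𝓡.convMul_apply (WithConv.toConv (fy x).ofConv.toLinearMap)
        (WithConv.toConv (fy y).ofConv.toLinearMap)
    let E := 𝓡.index.equivFin
    refine ⟨𝓡.index.card, fun i => ev (𝓡.left (E.symm i)), fun i => ev (𝓡.right (E.symm i)),
      fun i => ⟨_, rfl⟩, fun i => ⟨_, rfl⟩, ?_⟩
    intro x y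
    show ev h (x + y) = _
    rw [hev, hadd, hconv, ← Finset.sum_coe_sort, ← Equiv.sum_comp E.symm]
    rfl

end Fermat.Agent.S32
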