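import Fermat.Agent.S32.Defs
import Fermat.Agent.S32.OfS19
import Fermat.Agent.S32.KVPic
import Fermat.Agent.S19.A.Subquot
import Fermat.Agent.GAL.GeomFinal
import Fermat.Prelude.Def_ModularCurve_ArithmeticGalois

/-!
# S32 / TowerFlat: an Eichler--Shimura datum at the neat level `4 N` all of whose finite levels are flat at `p`
(from the statement S19 at level `4 N`)
-/

set_option autoImplicit false

namespace Fermat.Agent.S32

open Fermat.Agent.GAL Fermat.Agent.S19 Fermat.Agent.S24 ModularCurve AlgebraicCurve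

/-- The frozen statement S19. -/
def S19Statement : Prop :=
  ∀ (p : ℕ) [NeZero p] (ℓ : ℕ) [Fact ℓ.Prime] (_ : ¬ ℓ ∣ p) (k : ℕ),
    ∃ (H : Type) (_ : CommRing H) (_ : HopfAlgebra (GaloisRep.ratLocalizedAt ℓ) H),
      Module.Finite (GaloisRep.ratLocalizedAt ℓ) H ∧ Module.Flat (GaloisRep.ratLocalizedAt ℓ) H ∧
      Coalgebra.IsCocomm (GaloisRep.ratLocalizedAt ℓ) H ∧
      ∃ e : WithConv (H →ₐ[GaloisRep.ratLocalizedAt ℓ] AlgebraicClosure ℚ) ≃
          ↥(Submodule.torsionBy ℤ (JZero p) ((ℓ : ℤ) ^ k)),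
        (∀ f g, e (f * g) = e f + e g) ∧
        ∀ (σ : AlgebraicClosure ℚ ≃ₐ[ℚ] AlgebraicClosure ℚ)
          (f g : WithConv (H →ₐ[GaloisRep.ratLocalizedAt ℓ] AlgebraicClosure ℚ)),
          (∀ h : H, g h = σ (f h)) → ((e g : JZero p)) = σ • (e f : JZero p)

/-- The Kummer groups of the modular function field are flat. -/
theorem isFunFlat_KV (hS19 : S19Statement) (M p : ℕ) [NeZero M] [Fact p.Prime] (hpM : ¬ p ∣ M) (K : ℕ) :
    IsFunFlat p (KV Kbar (FF Kbar M) (p ^ K)) := by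
  have := Desc.isFF_FF_Kbar M
  obtain ⟨φ, hinj, hm, heq⟩ := exists_kvToPic (K := Kbar) (F := FF Kbar M) (p ^ K)
    (pow_ne_zero K (Fact.out : p.Prime).ne_zero)
  refine isFunFlat_of_hopf (J := JZero M) p ((p : ℤ) ^ K) (hS19 M p hpM K) φ hinj
    (fun σ y => heq _ y) (fun y => ?_)
  have := hm y
  push_cast at this
  exact this

theorem exists_esDatumAt_flat (hS19 : S19Statement) (N p : ℕ) [NeZero N] [Fact p.Prime] (hp2 : p ≠ 2)
    (hpN : ¬ p ∣ N) : ∃ D : ESDatumAt N (4 * N) p, ∀ K : ℕ, IsFunFlat p (ModRep D.ρ K) := by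
  have : NeZero (4 * N) := ⟨mul_ne_zero (by norm_num) (NeZero.ne N)⟩
  have hpM : ¬ p ∣ 4 * N := by
    intro h
    rcases (Nat.Prime.dvd_mul (Fact.out : p.Prime)).mp h with h | h
    · have h4 : p ∣ 2 ^ 2 := by norm_num; exact h
      exact hp2 ((Nat.prime_dvd_prime_iff_eq Fact.out Nat.prime_two).mp
        ((Fact.out : p.Prime).dvd_of_dvd_pow h4))
    · exact hpN h
  obtain ⟨Dt⟩ := Tors.nonempty_torsDatum' (4 * N)
  have hinj := injAt_of_neat (4 * N) p (Or.inl (dvd_mul_right 4 N))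
  let tw : TorsionTower (4 * N) (4 * N) p :=
    torsionTower dvd_rfl Dt (kvUnramified_of_injAt _ p hinj) (kvFrobRel_of_injAt _ p hinj)
  refine ⟨tw.toESDatumAt.ofDvd (dvd_mul_left N 4), fun K => ?_⟩
  refine IsFunFlat.of_addEquiv (G := KV Kbar (FF Kbar (4 * N)) (p ^ K))
    ((ModRep.of tw.rho K).symm.trans (tw.e K)) (fun σ x => ?_) (isFunFlat_KV hS19 (4 * N) p hpM K)
  exact tw.rho_spec K σ x

end Fermat.Agent.S32
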