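import Fermat.Agent.S32.Main
import Fermat.Agent.S32.TowerFlat
import Fermat.Agent.Lib.FrobDensity.GALInterface

/-!
# S32 from the statement S19
-/

set_option autoImplicit false

namespace Fermat.Agent.S32

open Fermat.Agent.GAL Fermat.Agent.S19 CuspForm

variable {p N : ℕ} [NeZero N] {S : Finset ℕ}
  {𝒪 : Type} [CommRing 𝒪] [IsDomain 𝒪] [IsDiscreteValuationRing 𝒪]
  [IsAdicComplete (IsLocalRing.maximalIdeal 𝒪) 𝒪]
  {θ : CuspForm.heckeAlgebra N 2 (↑S : Set ℕ) →+* IsLocalRing.ResidueField 𝒪}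
  {T : Type} [CommRing T] [IsLocalRing T] [IsNoetherianRing T]
  [IsAdicComplete (IsLocalRing.maximalIdeal T) T] [Algebra 𝒪 T] [IsLocalHom (algebraMap 𝒪 T)]
  [Module.Finite 𝒪 T] [Module.Free 𝒪 T]

/-- The exact statement S32 with the single extra hypothesis `S19Statement`. -/
theorem s32_of_s19 (hS19 : S19Statement)
    [Finite (IsLocalRing.ResidueField 𝒪)] [CharZero 𝒪]
    (hp : p.Prime) (hp2 : p ≠ 2) (hp𝒪 : (p : 𝒪) ∈ IsLocalRing.maximalIdeal 𝒪) (hpN : ¬ p ∣ N)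
    (hpS : p ∈ S) (hNS : ∀ q : ℕ, q.Prime → q ∣ N → q ∈ S)
    (H : CuspForm.HeckeGaloisRepDatum N (↑S : Set ℕ) 𝒪 θ T) :
    H.ρ.IsFlatAt p := by
  have : Fact p.Prime := ⟨hp⟩
  obtain ⟨D, hD⟩ := exists_esDatumAt_flat hS19 N p hp2 hpN
  exact isFlatAt_of_esDatumAt Fermat.Agent.Lib.FrobDensity.gal_frobeniusDensity D
    (mul_ne_zero (by norm_num) (NeZero.ne N)) hD hp𝒪 hpS hNS H

end Fermat.Agent.S32
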