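import Fermat.Agent.S32.Defs
import Fermat.Agent.S19.A.Subquot

/-!
# S32 / Ann: `IsFunFlat` only depends on the annihilator in `ℤ[G_ℚ]`

If `X` is a finite `G_ℚ`-module with a Hopf order of functions and `Y` is a finite `G_ℚ`-module such that every
`a ∈ ℤ[G_ℚ]` killing `X` kills `Y`, then `Y` has a Hopf order of functions.

Proof.  `P := Y → X → X` (a finite power of `X`, `IsFunFlat.pi` twice).  Let
`Θ : (Y → (GQ →₀ ℤ)) →+ P × Y`, `(a_y)_y ↦ ((x ↦ a_y x)_y, ∑_y a_y y)` and `Γ := range Θ` (an `AddSubgroup`, stable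
under `G_ℚ`: `σ • Θ a = Θ (σ a)` with `σ a := (a_y).mapDomain (σ * ·)`).  `fst : Γ → P` is injective by the hypothesis,
so `Γ` is `IsFunFlat` (`of_injective`), `Γ` is finite, and `snd : Γ → Y` is onto (`a = Pi.single y (single 1 1)`), so
`Y` is `IsFunFlat` (`of_surjective`).
-/

set_option autoImplicit false

namespace Fermat.Agent.S32

open Fermat.Agent.S19

variable {ℓ : ℕ} [Fact ℓ.Prime]

/-- The zero module. (`H = ⊥`, or all `Rl ℓ`-valued constant functions.) -/
theorem isFunFlat_of_subsingleton {X : Type} [AddCommGroup X] [DistribMulAction GQ X] [Subsingleton X] :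
    IsFunFlat ℓ X := by
  have hbot : ∀ h ∈ (⊥ : Subalgebra (Rl ℓ) (X → Qb)), ∃ r : Rl ℓ, ∀ x, h x = algebraMap (Rl ℓ) Qb r := by
    intro h hh
    obtain ⟨r, rfl⟩ := Algebra.mem_bot.mp hh
    exact ⟨r, fun x => rfl⟩
  refine ⟨⊥, ?_, ?_, ?_, ?_, ?_⟩
  · intro h hh σ x
    obtain ⟨r, hr⟩ := hbot h hh
    rw [hr, hr]
    exact (σ.commutes (r : ℚ)).symm
  · exact Subalgebra.fg_bot_toSubmodule
  · intro x y _
    exact Subsingleton.elim x y
  · intro h hh
    obtain ⟨r, hr⟩ := hbot h hh
    exact ⟨r, hr 0⟩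
  · intro h hh
    refine ⟨1, fun _ => h, fun _ => 1, fun _ => hh, fun _ => Subalgebra.one_mem _, fun x y => ?_⟩
    obtain ⟨r, hr⟩ := hbot h hh
    simp [hr]

/-- Finite powers. (Induction on the cardinality via `Fin n`, `IsFunFlat.prod`, `IsFunFlat.of_addEquiv`,
`Fin.consEquiv`/`Fin.insertNthEquiv`-like additive equivalence `(Fin (n+1) → X) ≃+ X × (Fin n → X)`.) -/
theorem isFunFlat_pi {X : Type} [AddCommGroup X] [DistribMulAction GQ X] (h : IsFunFlat ℓ X)
    (ι : Type) [Finite ι] : IsFunFlat ℓ (ι → X) := by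
  have key : ∀ n : ℕ, IsFunFlat ℓ (Fin n → X) := by
    intro n
    induction n with
    | zero => exact isFunFlat_of_subsingleton
    | succ n ih =>
      refine IsFunFlat.of_injective (G := X × (Fin n → X))
        { toFun := fun f => (f 0, Fin.tail f)
          map_zero' := rfl
          map_add' := fun f g => rfl } ?_ (fun σ f => rfl) (h.prod ih)
      intro f g hfg
      have h0 : f 0 = g 0 := congrArg Prod.fst hfg
      have h1 : Fin.tail f = Fin.tail g := congrArg Prod.snd hfg
      funext i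
      refine Fin.cases h0 (fun j => ?_) i
      exact congrFun h1 j
  obtain ⟨n, ⟨e⟩⟩ := Finite.exists_equiv_fin ι
  refine IsFunFlat.of_injective (G := Fin n → X)
    { toFun := fun f => fun j => f (e.symm j)
      map_zero' := rfl
      map_add' := fun f g => rfl } ?_ (fun σ f => rfl) (key n)
  intro f g hfg
  funext i
  have := congrFun hfg (e i)
  simpa using this

theorem combAct_add {X : Type} [AddCommGroup X] [DistribMulAction GQ X] (a b : GQ →₀ ℤ) (x : X) :
    combAct (a + b) x = combAct a x + combAct b x := by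
  unfold combAct
  exact Finsupp.sum_add_index' (fun g => zero_smul _ _) (fun g m n => add_smul _ _ _)

theorem combAct_single {X : Type} [AddCommGroup X] [DistribMulAction GQ X] (g : GQ) (n : ℤ) (x : X) :
    combAct (Finsupp.single g n) x = n • (g • x) := by
  unfold combAct
  exact Finsupp.sum_single_index (zero_smul _ _)

theorem smul_combAct {X : Type} [AddCommGroup X] [DistribMulAction GQ X] (σ : GQ) (a : GQ →₀ ℤ) (x : X) :
    σ • combAct a x = combAct (a.mapDomain (σ * ·)) x := by
  unfold combAct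
  rw [Finsupp.sum_mapDomain_index (h := fun g (n : ℤ) => n • g • x) (fun g => zero_smul _ _)
    (fun g m n => add_smul _ _ _), Finsupp.smul_sum]
  refine Finsupp.sum_congr fun g _ => ?_
  rw [smul_comm, mul_smul]

theorem Ann_combAct_zero {X : Type} [AddCommGroup X] [DistribMulAction GQ X] (x : X) :
    combAct (0 : GQ →₀ ℤ) x = 0 := by
  unfold combAct
  exact Finsupp.sum_zero_index

/-- the sub-action on a stable additive subgroup. -/
@[reducible] noncomputable def Ann_subAction {G : Type} [AddCommGroup G] [DistribMulAction GQ G] (S : AddSubgroup G)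
    (hS : ∀ (σ : GQ) (x : G), x ∈ S → σ • x ∈ S) : DistribMulAction GQ S where
  smul σ z := ⟨σ • (z : G), hS σ _ z.2⟩
  one_smul z := Subtype.ext (one_smul _ _)
  mul_smul σ τ z := Subtype.ext (mul_smul _ _ _)
  smul_zero σ := Subtype.ext (smul_zero _)
  smul_add σ x y := Subtype.ext (smul_add _ _ _)

/-- the map `Θ` of the header. -/
noncomputable def Ann_theta (X Y : Type) [AddCommGroup X] [DistribMulAction GQ X]
    [AddCommGroup Y] [Fintype Y] [DistribMulAction GQ Y] :
    (Y → (GQ →₀ ℤ)) →+ (Y → X → X) × Y where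
  toFun a := (fun y x => combAct (a y) x, ∑ y, combAct (a y) y)
  map_zero' := by
    refine Prod.ext ?_ ?_
    · funext y x
      exact Ann_combAct_zero x
    · exact Finset.sum_eq_zero fun y _ => Ann_combAct_zero y
  map_add' a b := by
    refine Prod.ext ?_ ?_
    · funext y x
      exact combAct_add _ _ _
    · show ∑ y, combAct (a y + b y) y = ∑ y, combAct (a y) y + ∑ y, combAct (b y) y
      rw [← Finset.sum_add_distrib]
      exact Finset.sum_congr rfl fun y _ => combAct_add _ _ _

theorem Ann_smul_theta (X Y : Type) [AddCommGroup X] [DistribMulAction GQ X]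
    [AddCommGroup Y] [Fintype Y] [DistribMulAction GQ Y] (σ : GQ) (a : Y → (GQ →₀ ℤ)) :
    σ • Ann_theta X Y a = Ann_theta X Y (fun y => (a y).mapDomain (σ * ·)) := by
  refine Prod.ext ?_ ?_
  · funext y x
    exact smul_combAct σ (a y) x
  · show σ • ∑ y, combAct (a y) y = ∑ y, combAct ((a y).mapDomain (σ * ·)) y
    rw [Finset.smul_sum]
    exact Finset.sum_congr rfl fun y _ => smul_combAct σ (a y) y

/-- **`IsFunFlat` only depends on the annihilator.** -/
theorem isFunFlat_of_ann {X Y : Type} [AddCommGroup X] [Finite X] [DistribMulAction GQ X]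
    [AddCommGroup Y] [Finite Y] [DistribMulAction GQ Y] (hX : IsFunFlat ℓ X)
    (h : ∀ a : GQ →₀ ℤ, (∀ x : X, combAct a x = 0) → ∀ y : Y, combAct a y = 0) : IsFunFlat ℓ Y := by
  classical
  have := Fintype.ofFinite Y
  let Γ : AddSubgroup ((Y → X → X) × Y) := (Ann_theta X Y).range
  have hΓ : ∀ (σ : GQ) (z : (Y → X → X) × Y), z ∈ Γ → σ • z ∈ Γ := by
    rintro σ _ ⟨a, rfl⟩
    exact ⟨_, (Ann_smul_theta X Y σ a).symm⟩
  let _ : DistribMulAction GQ Γ := Ann_subAction Γ hΓ
  have hP : IsFunFlat ℓ (Y → X → X) := isFunFlat_pi (isFunFlat_pi hX X) Y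
  have hΓflat : IsFunFlat ℓ Γ := by
    refine IsFunFlat.of_injective (G := Y → X → X)
      ((AddMonoidHom.fst (Y → X → X) Y).comp Γ.subtype) ?_ (fun σ z => rfl) hP
    rw [injective_iff_map_eq_zero]
    rintro ⟨_, a, rfl⟩ hz
    apply Subtype.ext
    have hz' : (fun y x => combAct (a y) x : Y → X → X) = 0 := hz
    refine Prod.ext hz ?_
    show ∑ y, combAct (a y) y = 0
    exact Finset.sum_eq_zero fun y _ => h (a y) (fun x => congrFun (congrFun hz' y) x) y
  refine IsFunFlat.of_surjective (G := Γ)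
    ((AddMonoidHom.snd (Y → X → X) Y).comp Γ.subtype) ?_ (fun σ z => rfl) hΓflat
  intro y
  refine ⟨⟨Ann_theta X Y (Pi.single y (Finsupp.single 1 1)), _, rfl⟩, ?_⟩
  show ∑ y', combAct ((Pi.single y (Finsupp.single 1 1) : Y → (GQ →₀ ℤ)) y') y' = y
  rw [Finset.sum_eq_single y]
  · rw [Pi.single_eq_same, combAct_single, one_smul, one_smul]
  · intro y' _ hy'
    rw [Pi.single_eq_of_ne hy', Ann_combAct_zero]
  · intro hy
    exact absurd (Finset.mem_univ y) hy

end Fermat.Agent.S32
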