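import Fermat.Agent.S32.Defs
import Mathlib

/-!
# S32 / BridgeA: proofs of B1, B2 of `S32/Bridge.lean`
(from annihilators of modules to relations between matrices)
-/

set_option autoImplicit false

namespace Fermat.Agent.S32

open Fermat.Agent.GAL Fermat.Agent.S19

/-- `a ∈ ℤ[G_ℚ]` with coefficients in `𝒪` (copy of `castComb`). -/
noncomputable def castCombA (𝒪 : Type) [CommRing 𝒪] (a : S19.GQ →₀ ℤ) : GAL.GQ →₀ 𝒪 :=
  a.mapRange (Int.cast : ℤ → 𝒪) Int.cast_zero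

theorem BridgeA_linComb {𝒪 M : Type} [CommRing 𝒪] [AddCommGroup M] [Module 𝒪 M] (f : GAL.GQ → M)
    (a : S19.GQ →₀ ℤ) :
    Finsupp.linearCombination 𝒪 f (castCombA 𝒪 a) = a.sum fun g n => n • f g := by
  rw [Finsupp.linearCombination_apply, castCombA,
    Finsupp.sum_mapRange_index (by intro g; exact zero_smul _ _)]
  refine Finsupp.sum_congr fun g _ => ?_
  exact Int.cast_smul_eq_zsmul 𝒪 _ _

theorem BridgeA_combAct_of {p r : ℕ} [Fact p.Prime] (ρ : GAL.GQ →* Matrix (Fin r) (Fin r) ℤ_[p])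
    (K : ℕ) (a : S19.GQ →₀ ℤ) (x : Fin r → ZMod (p ^ K)) :
    combAct a (ModRep.of ρ K x) = ModRep.of ρ K
      (((PadicInt.toZModPow K).mapMatrix (a.sum fun g n => n • ρ g)).mulVec x) := by
  unfold combAct
  rw [Finsupp.sum, Finsupp.sum, map_sum, Matrix.sum_mulVec, map_sum]
  refine Finset.sum_congr rfl fun g _ => ?_
  rw [ModRep.smul_of, map_zsmul, Matrix.smul_mulVec, map_zsmul]

/-- B1 of `S32/Bridge.lean`. -/
theorem bridgeA_B1 {p r : ℕ} [Fact p.Prime]
    (ρ : GAL.GQ →* Matrix (Fin r) (Fin r) ℤ_[p]) {𝒪 : Type} [CommRing 𝒪] (ι : ℤ_[p] →+* 𝒪) (K : ℕ)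
    (a : S19.GQ →₀ ℤ) (ha : ∀ x : ModRep ρ K, combAct a x = 0) :
    Finsupp.linearCombination 𝒪 (fun g : GAL.GQ => ι.mapMatrix (ρ g)) (castCombA 𝒪 a) ∈
      Ideal.span {(p : 𝒪)} ^ K • (⊤ : Submodule 𝒪 (Matrix (Fin r) (Fin r) 𝒪)) := by
  classical
  set E := a.sum fun g n => n • ρ g with hE
  have h1 : (PadicInt.toZModPow K).mapMatrix E = 0 := by
    apply Matrix.toLin'.injective
    apply LinearMap.ext
    intro x
    rw [Matrix.toLin'_apply, map_zero, LinearMap.zero_apply]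
    have h2 := ha (ModRep.of ρ K x)
    rw [BridgeA_combAct_of] at h2
    exact (ModRep.of ρ K).injective (h2.trans (map_zero _).symm)
  have h2 : ∀ i j, ∃ y : ℤ_[p], E i j = (p : ℤ_[p]) ^ K * y := by
    intro i j
    have h3 : PadicInt.toZModPow K (E i j) = 0 := congrFun (congrFun h1 i) j
    rw [← RingHom.mem_ker, PadicInt.ker_toZModPow, Ideal.mem_span_singleton] at h3
    exact h3
  choose Y hY using h2
  have h4 : E = (p : ℤ_[p]) ^ K • Matrix.of Y := by
    ext i j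
    simp [hY]
  rw [BridgeA_linComb]
  have h5 : (a.sum fun g n => n • ι.mapMatrix (ρ g)) = ι.mapMatrix E := by
    rw [hE, Finsupp.sum, Finsupp.sum, map_sum]
    simp only [map_zsmul]
  have h6 : ι.mapMatrix ((p : ℤ_[p]) ^ K • Matrix.of Y) =
      (p : 𝒪) ^ K • ι.mapMatrix (Matrix.of Y) := by
    ext i j
    simp
  rw [h5, h4, h6]
  exact Submodule.smul_mem_smul (Ideal.pow_mem_pow (Ideal.mem_span_singleton_self _) K) trivial

/-- B2 of `S32/Bridge.lean`. -/
theorem bridgeA_B2 {𝒪 T : Type} [CommRing 𝒪] [CommRing T] [IsLocalRing T]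
    [Algebra 𝒪 T] (ρ : GaloisRepAdic T) (b : Module.Basis (Fin 2) T ρ.V) (I : Ideal T) (p j : ℕ)
    (hj : (p : T) ^ j ∈ I) (a : S19.GQ →₀ ℤ)
    (ha : Finsupp.linearCombination 𝒪 (fun g : GAL.GQ => LinearMap.toMatrix b b (ρ.ρ g)) (castCombA 𝒪 a) ∈
      Ideal.span {(p : 𝒪)} ^ j • (⊤ : Submodule 𝒪 (Matrix (Fin 2) (Fin 2) T)))
    (y : LevelMod ρ I) : combAct a y = 0 := by
  obtain ⟨v, rfl⟩ := LevelMod.mk_surjective ρ I y
  set E : Module.End T ρ.V := a.sum fun g n => n • ρ.ρ g with hE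
  have h1 : combAct a (LevelMod.mk ρ I v) = LevelMod.mk ρ I (E v) := by
    unfold combAct
    rw [hE, Finsupp.sum, Finsupp.sum, LinearMap.sum_apply, map_sum]
    refine Finset.sum_congr rfl fun g _ => ?_
    rw [LevelMod.smul_mk, LinearMap.smul_apply, map_zsmul]
  rw [h1, LevelMod.mk_eq_zero_iff]
  rw [BridgeA_linComb] at ha
  have h2 : (a.sum fun g n => n • LinearMap.toMatrix b b (ρ.ρ g)) = LinearMap.toMatrix b b E := by
    rw [hE, Finsupp.sum, Finsupp.sum, map_sum]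
    simp only [map_zsmul]
  rw [h2, Ideal.span_singleton_pow, Submodule.ideal_span_singleton_smul] at ha
  obtain ⟨Y, -, hY⟩ := (Submodule.mem_smul_pointwise_iff_exists _ _ _).1 ha
  have h3 : E = (p : T) ^ j • Matrix.toLin b b Y := by
    apply (LinearMap.toMatrix b b).injective
    rw [← hY, map_smul, LinearMap.toMatrix_toLin, ← algebraMap_smul T ((p : 𝒪) ^ j) Y, map_pow,
      map_natCast]
  rw [h3, LinearMap.smul_apply]
  exact Submodule.smul_mem_smul hj trivial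

end Fermat.Agent.S32
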