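import Fermat.Agent.S32.Defs

/-!
# S32 / BridgeB: the small finiteness facts B3, B4, B5 of `S32/Bridge.lean`
-/

set_option autoImplicit false

namespace Fermat.Agent.S32

open Fermat.Agent.GAL Fermat.Agent.S19

/-- B3.  The powers of `x` in the finite ring `T / I` are not all distinct: `x^a (1 - x^(b-a)) ∈ I` and
`1 - x^(b-a)` is a unit of the local ring `T`. -/
theorem bridgeB_B3 {T : Type} [CommRing T] [IsLocalRing T] (I : Ideal T) [Finite (T ⧸ I)]
    (x : T) (hx : x ∈ IsLocalRing.maximalIdeal T) : ∃ j : ℕ, x ^ j ∈ I := by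
  obtain ⟨a, b, hab, h⟩ :=
    Finite.exists_ne_map_eq_of_infinite (fun n : ℕ => Ideal.Quotient.mk I (x ^ n))
  wlog hlt : a < b generalizing a b
  · exact this b a hab.symm h.symm (lt_of_le_of_ne (not_lt.mp hlt) hab.symm)
  obtain ⟨d, rfl⟩ := Nat.exists_eq_add_of_lt hlt
  refine ⟨a, ?_⟩
  have h1 : x ^ a * (1 - x ^ (d + 1)) ∈ I := by
    have h2 := (Ideal.Quotient.eq (I := I)).mp h
    have h3 : x ^ a * (1 - x ^ (d + 1)) = x ^ a - x ^ (a + d + 1) := by ring
    rw [h3]
    exact h2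
  have hmem : x ^ (d + 1) ∈ IsLocalRing.maximalIdeal T :=
    Ideal.pow_mem_of_mem _ hx _ (Nat.succ_pos d)
  have hu : IsUnit (1 - x ^ (d + 1)) := by
    by_contra hnu
    have h4 : 1 - x ^ (d + 1) ∈ IsLocalRing.maximalIdeal T :=
      (IsLocalRing.mem_maximalIdeal _).mpr hnu
    have h5 : (1 : T) ∈ IsLocalRing.maximalIdeal T := by
      have := Ideal.add_mem _ h4 hmem
      simpa using this
    exact (Ideal.ne_top_iff_one _).mp (IsLocalRing.maximalIdeal.isMaximal T).ne_top h5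
  exact (Ideal.mul_unit_mem_iff_mem I hu).mp h1

/-- B4.  `V / I V` is a finite module over the finite ring `T / I`. -/
theorem bridgeB_B4 {T : Type} [CommRing T] [IsLocalRing T] (ρ : GaloisRepAdic T) (I : Ideal T)
    [Finite (T ⧸ I)] : Finite (LevelMod ρ I) := by
  haveI : Module.Finite (T ⧸ I) (ρ.V ⧸ (I • (⊤ : Submodule T ρ.V))) :=
    Module.Finite.of_restrictScalars_finite T (T ⧸ I) _
  exact (Module.finite_of_finite (T ⧸ I) : Finite (ρ.V ⧸ (I • (⊤ : Submodule T ρ.V))))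

/-- B5. -/
theorem bridgeB_B5 {𝒪 T : Type} [CommRing 𝒪] [IsLocalRing 𝒪] [CommRing T]
    [IsLocalRing T] [Algebra 𝒪 T] [IsLocalHom (algebraMap 𝒪 T)] [Finite (IsLocalRing.ResidueField 𝒪)]
    (h : Function.Surjective (IsLocalRing.residue T ∘ algebraMap 𝒪 T)) :
    Finite (IsLocalRing.ResidueField T) := by
  refine Finite.of_surjective (IsLocalRing.ResidueField.map (algebraMap 𝒪 T)) ?_
  intro y
  obtain ⟨a, ha⟩ := h y
  exact ⟨IsLocalRing.residue 𝒪 a, by rw [IsLocalRing.ResidueField.map_residue]; exact ha⟩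

end Fermat.Agent.S32
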