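import Fermat.Agent.S32.Alg.Datum
import Fermat.Agent.GAL.ALG.HeckeCorr
import Fermat.Agent.GAL.ALG.CycloO
import Fermat.Prelude.Def_CuspForm_HeckeGaloisRepDatum

/-!
# S32 / OfES: the abstract datum `AlgDatum` attached to an Eichler--Shimura datum and a Hecke--Galois datum
-/

set_option autoImplicit false

namespace Fermat.Agent.S32

open Fermat.Agent.GAL CuspForm

variable {p N M : ℕ} [NeZero N] [Fact p.Prime] {S : Finset ℕ}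
  {𝒪 : Type} [CommRing 𝒪] [IsDomain 𝒪] [IsDiscreteValuationRing 𝒪]
  [IsAdicComplete (IsLocalRing.maximalIdeal 𝒪) 𝒪]
  {θ : CuspForm.heckeAlgebra N 2 (↑S : Set ℕ) →+* IsLocalRing.ResidueField 𝒪}
  {T : Type} [CommRing T] [IsLocalRing T] [IsNoetherianRing T]
  [IsAdicComplete (IsLocalRing.maximalIdeal T) T] [Algebra 𝒪 T] [IsLocalHom (algebraMap 𝒪 T)]
  [Module.Finite 𝒪 T] [Module.Free 𝒪 T]

/-- The action of `G_ℚ` on `𝒪^r`. -/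
noncomputable def esAO (D : ESDatumAt N M p) (ι : ℤ_[p] →+* 𝒪) :
    GQ →* Matrix (Fin D.r) (Fin D.r) 𝒪 :=
  (ι.mapMatrix : Matrix (Fin D.r) (Fin D.r) ℤ_[p] →+* Matrix (Fin D.r) (Fin D.r) 𝒪).toMonoidHom.comp D.ρ

theorem esAO_apply (D : ESDatumAt N M p) (ι : ℤ_[p] →+* 𝒪) (σ : GQ) :
    esAO D ι σ = ι.mapMatrix (D.ρ σ) := rfl

theorem mapMatrix_intCast (ι : ℤ_[p] →+* 𝒪) {r : ℕ} (X : Matrix (Fin r) (Fin r) ℤ) :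
    ι.mapMatrix (X.map (Int.castRingHom ℤ_[p])) = X.map (Int.castRingHom 𝒪) := by
  ext i j
  simp

open Classical in
/-- The chosen Hecke correspondences. -/
noncomputable def esX (D : ESDatumAt N M p) {C : Type} [CommRing C]
    (Φ : C →+* Matrix (Fin D.r) (Fin D.r) ℤ) (Ψ : C →+* CuspForm.heckeAlgebra N 2 (↑S : Set ℕ))
    (hX : ∀ (ℓ : ℕ) (hℓ : ℓ.Prime) (hℓN : ¬ ℓ ∣ N) (hℓS : ℓ ∉ (↑S : Set ℕ)), ¬ ℓ ∣ M →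
        ∃ x : C, Φ x = D.T ℓ ∧ Ψ x = CuspForm.heckeAlgebra.T hℓ hℓN hℓS) (ℓ : ℕ) : C :=
  if h : ℓ.Prime ∧ ¬ ℓ ∣ N ∧ ℓ ∉ (↑S : Set ℕ) ∧ ¬ ℓ ∣ M then
    (hX ℓ h.1 h.2.1 h.2.2.1 h.2.2.2).choose else 0

theorem esX_spec (D : ESDatumAt N M p) {C : Type} [CommRing C]
    (Φ : C →+* Matrix (Fin D.r) (Fin D.r) ℤ) (Ψ : C →+* CuspForm.heckeAlgebra N 2 (↑S : Set ℕ))
    (hX : ∀ (ℓ : ℕ) (hℓ : ℓ.Prime) (hℓN : ¬ ℓ ∣ N) (hℓS : ℓ ∉ (↑S : Set ℕ)), ¬ ℓ ∣ M →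
        ∃ x : C, Φ x = D.T ℓ ∧ Ψ x = CuspForm.heckeAlgebra.T hℓ hℓN hℓS)
    {ℓ : ℕ} (hℓ : ℓ.Prime) (hℓN : ¬ ℓ ∣ N) (hℓS : ℓ ∉ (↑S : Set ℕ)) (hℓM : ¬ ℓ ∣ M) :
    Φ (esX D Φ Ψ hX ℓ) = D.T ℓ ∧ Ψ (esX D Φ Ψ hX ℓ) = CuspForm.heckeAlgebra.T hℓ hℓN hℓS := by
  rw [esX, dif_pos ⟨hℓ, hℓN, hℓS, hℓM⟩]
  exact (hX ℓ hℓ hℓN hℓS hℓM).choose_spec

theorem es_not_dvd (hM : M ≠ 0) (hpS : p ∈ S) (hNS : ∀ q : ℕ, q.Prime → q ∣ N → q ∈ S) {ℓ : ℕ}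
    (hℓ : ℓ.Prime) (hℓB : ℓ ∉ S ∪ M.primeFactors) :
    ¬ ℓ ∣ N ∧ ℓ ∉ (↑S : Set ℕ) ∧ ¬ ℓ ∣ M ∧ ¬ ℓ ∣ M * p ∧ ℓ ≠ p := by
  have h1 : ℓ ∉ S := fun h => hℓB (Finset.mem_union_left _ h)
  have h2 : ¬ ℓ ∣ M := fun h => hℓB (Finset.mem_union_right _ (Nat.mem_primeFactors.mpr ⟨hℓ, h, hM⟩))
  have h3 : ℓ ≠ p := fun h => h1 (h ▸ hpS)
  refine ⟨fun h => h1 (hNS ℓ hℓ h), by simpa using h1, h2, fun h => ?_, h3⟩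
  rcases (Nat.Prime.dvd_mul hℓ).mp h with h | h
  · exact h2 h
  · exact h3 ((Nat.prime_dvd_prime_iff_eq hℓ (Fact.out : p.Prime)).mp h)

/-- The abstract datum. -/
noncomputable def algDatum (D : ESDatumAt N M p) (hM : M ≠ 0)
    (hp𝒪 : (p : 𝒪) ∈ IsLocalRing.maximalIdeal 𝒪) (hpS : p ∈ S)
    (hNS : ∀ q : ℕ, q.Prime → q ∣ N → q ∈ S)
    (H : CuspForm.HeckeGaloisRepDatum N (↑S : Set ℕ) 𝒪 θ T) (ι : ℤ_[p] →+* 𝒪)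
    {C : Type} [CommRing C]
    (Φ : C →+* Matrix (Fin D.r) (Fin D.r) ℤ) (Ψ : C →+* CuspForm.heckeAlgebra N 2 (↑S : Set ℕ))
    (hΦ : Function.Injective Φ)
    (hcomm : ∀ (x : C) (σ : GQ), D.ρ σ * (Φ x).map (Int.castRingHom ℤ_[p]) =
        (Φ x).map (Int.castRingHom ℤ_[p]) * D.ρ σ)
    (hX : ∀ (ℓ : ℕ) (hℓ : ℓ.Prime) (hℓN : ¬ ℓ ∣ N) (hℓS : ℓ ∉ (↑S : Set ℕ)), ¬ ℓ ∣ M →
        ∃ x : C, Φ x = D.T ℓ ∧ Ψ x = CuspForm.heckeAlgebra.T hℓ hℓN hℓS) : AlgDatum 𝒪 T where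
  r := D.r
  C := C
  Φ := Φ
  Φ_inj := hΦ
  ψ := H.π.comp Ψ
  AO := esAO D ι
  AO_comm := fun c σ => by
    have h := congrArg ι.mapMatrix (hcomm c σ)
    rw [map_mul, map_mul, mapMatrix_intCast] at h
    exact h.symm
  AO_cont := fun n => by
    obtain ⟨F, hF, h⟩ := D.ρ_cont n
    refine ⟨F, hF, fun σ hσ i j => ?_⟩
    obtain ⟨y, hy⟩ := h σ hσ i j
    have h1 : (esAO D ι σ - 1) i j = ι ((D.ρ σ - 1) i j) := by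
      rw [esAO_apply, ← map_one ι.mapMatrix, ← map_sub]
      rfl
    rw [h1, hy, map_mul, map_pow, map_natCast]
    exact Ideal.mul_mem_right _ _ (Ideal.pow_mem_pow hp𝒪 n)
  ε := cycloO ι
  ε_cont := cycloO_cont ι hp𝒪
  B := S ∪ M.primeFactors
  X := esX D Φ Ψ hX
  ε_frob := fun ℓ hℓ hℓB A hA σ hσ =>
    cycloO_frobenius ι hℓ (es_not_dvd hM hpS hNS hℓ hℓB).2.2.2.2 A hA σ hσ
  AO_ES := fun ℓ hℓ hℓB A hA σ hσ => by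
    obtain ⟨h1, h2, h3, h4, _⟩ := es_not_dvd hM hpS hNS hℓ hℓB
    have h := congrArg ι.mapMatrix (D.ρ_ES ℓ hℓ h4 A hA σ hσ)
    rw [map_add, map_sub, map_mul, map_mul, mapMatrix_intCast, map_natCast, map_zero] at h
    rw [(esX_spec D Φ Ψ hX hℓ h1 h2 h3).1]
    exact h
  ρ := H.ρ
  ρ_char := fun ℓ hℓ hℓB A hA σ hσ => by
    obtain ⟨h1, h2, h3, _, _⟩ := es_not_dvd hM hpS hNS hℓ hℓB
    rw [H.charpoly_frob ℓ hℓ h1 h2 A hA σ hσ, RingHom.comp_apply, (esX_spec D Φ Ψ hX hℓ h1 h2 h3).2]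
  ρ_absIrr := H.residual_absIrr

end Fermat.Agent.S32
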