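import Fermat.Agent.S32.Defs
import Fermat.Agent.S32.OfES
import Fermat.Agent.S32.Alg.Kernel
import Fermat.Agent.S32.BridgeA
import Fermat.Agent.S32.BridgeB

/-!
# S32 / Bridge: from annihilators of modules to relations between matrices, and small finiteness facts
-/

set_option autoImplicit false

namespace Fermat.Agent.S32

open Fermat.Agent.GAL Fermat.Agent.S19

/-- `a ∈ ℤ[G_ℚ]` with coefficients in `𝒪`. -/
noncomputable def castComb (𝒪 : Type) [CommRing 𝒪] (a : S19.GQ →₀ ℤ) : GAL.GQ →₀ 𝒪 :=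
  a.mapRange (Int.cast : ℤ → 𝒪) Int.cast_zero

/-- B1.  `combAct a (of x) = of ((∑ n_g (ρ g mod p^K)).mulVec x)`; test on `Pi.single j 1`: the matrix
`(toZModPow K).mapMatrix (∑ n_g • ρ g)` vanishes, so all entries of `∑ n_g • ρ g` are divisible by `p^K`
(`PadicInt.ker_toZModPow`, `Ideal.mem_span_singleton`): `∑ n_g • ρ g = p^K • Y`.  Apply `ι.mapMatrix`. -/
theorem linearCombination_mem_of_combAct {p r : ℕ} [Fact p.Prime]
    (ρ : GAL.GQ →* Matrix (Fin r) (Fin r) ℤ_[p]) {𝒪 : Type} [CommRing 𝒪] (ι : ℤ_[p] →+* 𝒪) (K : ℕ)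
    (a : S19.GQ →₀ ℤ) (ha : ∀ x : ModRep ρ K, combAct a x = 0) :
    Finsupp.linearCombination 𝒪 (fun g : GAL.GQ => ι.mapMatrix (ρ g)) (castComb 𝒪 a) ∈
      Ideal.span {(p : 𝒪)} ^ K • (⊤ : Submodule 𝒪 (Matrix (Fin r) (Fin r) 𝒪)) :=
  bridgeA_B1 ρ ι K a ha

/-- B2.  `combAct a (mk v) = mk (E v)`, `E = ∑ n_g • ρ g`, `toMatrix b b E = linearCombination ...  = p^j • Y`
(`Ideal.span_singleton_pow`, `Submodule.ideal_span_singleton_smul`, `Submodule.mem_smul_pointwise_iff_exists`), so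
`E v = p^j • (toLin b b Y) v ∈ I V`. -/
theorem combAct_eq_zero_of_linearCombination_mem {𝒪 T : Type} [CommRing 𝒪] [CommRing T] [IsLocalRing T]
    [Algebra 𝒪 T] (ρ : GaloisRepAdic T) (b : Module.Basis (Fin 2) T ρ.V) (I : Ideal T) (p j : ℕ)
    (hj : (p : T) ^ j ∈ I) (a : S19.GQ →₀ ℤ)
    (ha : Finsupp.linearCombination 𝒪 (fun g : GAL.GQ => LinearMap.toMatrix b b (ρ.ρ g)) (castComb 𝒪 a) ∈
      Ideal.span {(p : 𝒪)} ^ j • (⊤ : Submodule 𝒪 (Matrix (Fin 2) (Fin 2) T)))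
    (y : LevelMod ρ I) : combAct a y = 0 :=
  bridgeA_B2 ρ b I p j hj a ha y

/-- B3.  The powers of `p` in the finite ring `T / I` are not all distinct: `p^a (1 - p^(b-a)) ∈ I` and
`1 - p^(b-a)` is a unit of the local ring `T`. -/
theorem exists_pow_mem_of_finite {T : Type} [CommRing T] [IsLocalRing T] (I : Ideal T) [Finite (T ⧸ I)]
    (x : T) (hx : x ∈ IsLocalRing.maximalIdeal T) : ∃ j : ℕ, x ^ j ∈ I :=
  bridgeB_B3 I x hx

/-- B4.  `V ≃ T²`, so `V / I V` is a quotient of `(T / I)²`; or: `V / I V` is a finite module over the finite ring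
`T / I` (`Module.finite_of_finite`). -/
theorem finite_levelMod {T : Type} [CommRing T] [IsLocalRing T] (ρ : GaloisRepAdic T) (I : Ideal T)
    [Finite (T ⧸ I)] : Finite (LevelMod ρ I) :=
  bridgeB_B4 ρ I

/-- B5. -/
theorem finite_residueField_of_surjective {𝒪 T : Type} [CommRing 𝒪] [IsLocalRing 𝒪] [CommRing T]
    [IsLocalRing T] [Algebra 𝒪 T] [IsLocalHom (algebraMap 𝒪 T)] [Finite (IsLocalRing.ResidueField 𝒪)]
    (h : Function.Surjective (IsLocalRing.residue T ∘ algebraMap 𝒪 T)) :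
    Finite (IsLocalRing.ResidueField T) :=
  bridgeB_B5 h

end Fermat.Agent.S32
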