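import Fermat.Agent.S32.Bridge
import Fermat.Agent.S32.Ann
import Fermat.Agent.S19.A.FunFlat
import Fermat.Agent.GAL.ALG.PadicMap

/-!
# S32 / Main: flatness at `p` from an Eichler--Shimura datum whose finite levels are flat
-/

set_option autoImplicit false

namespace Fermat.Agent.S32

open Fermat.Agent.GAL Fermat.Agent.S19 CuspForm

variable {p N M : ℕ} [NeZero N] {S : Finset ℕ}
  {𝒪 : Type} [CommRing 𝒪] [IsDomain 𝒪] [IsDiscreteValuationRing 𝒪]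
  [IsAdicComplete (IsLocalRing.maximalIdeal 𝒪) 𝒪]
  {θ : CuspForm.heckeAlgebra N 2 (↑S : Set ℕ) →+* IsLocalRing.ResidueField 𝒪}
  {T : Type} [CommRing T] [IsLocalRing T] [IsNoetherianRing T]
  [IsAdicComplete (IsLocalRing.maximalIdeal T) T] [Algebra 𝒪 T] [IsLocalHom (algebraMap 𝒪 T)]
  [Module.Finite 𝒪 T] [Module.Free 𝒪 T]

theorem isFlatAt_of_esDatumAt [Fact p.Prime] (hFD : FrobeniusDensity) (D : ESDatumAt N M p) (hM : M ≠ 0)
    (hflat : ∀ K : ℕ, IsFunFlat p (ModRep D.ρ K))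
    [Finite (IsLocalRing.ResidueField 𝒪)] [CharZero 𝒪]
    (hp𝒪 : (p : 𝒪) ∈ IsLocalRing.maximalIdeal 𝒪) (hpS : p ∈ S)
    (hNS : ∀ q : ℕ, q.Prime → q ∣ N → q ∈ S)
    (H : CuspForm.HeckeGaloisRepDatum N (↑S : Set ℕ) 𝒪 θ T) : H.ρ.IsFlatAt p := by
  rw [isFlatAt_iff]
  refine ⟨finite_residueField_of_surjective H.residue_surjective, fun I hI => ?_⟩
  obtain ⟨ι⟩ := exists_padicInt_ringHom p 𝒪 hp𝒪
  obtain ⟨C, _, Φ, Ψ, hΦ, hcomm, hX⟩ := exists_heckeCorr D (↑S : Set ℕ)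
  let A : AlgDatum 𝒪 T := algDatum D hM hp𝒪 hpS hNS H ι Φ Ψ hΦ hcomm hX
  let b : Module.Basis (Fin 2) T H.ρ.V := Module.finBasisOfFinrankEq T H.ρ.V H.ρ.finrank_eq
  have hpT : (p : T) ∈ IsLocalRing.maximalIdeal T := by
    have := map_nonunit (algebraMap 𝒪 T) (p : 𝒪) hp𝒪
    rwa [map_natCast] at this
  obtain ⟨j, hj⟩ := exists_pow_mem_of_finite I (p : T) hpT
  obtain ⟨K, hK⟩ := A.exists_level hFD b (Ideal.span {(p : 𝒪)}) j
  have : Finite (LevelMod H.ρ I) := finite_levelMod H.ρ I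
  refine IsFunFlat.isFlatMod (isFunFlat_of_ann (hflat K) fun a ha y => ?_)
  exact combAct_eq_zero_of_linearCombination_mem (𝒪 := 𝒪) H.ρ b I p j hj a
    (hK _ (linearCombination_mem_of_combAct D.ρ ι K a ha)) y

end Fermat.Agent.S32
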